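import Fermat.Agent.Cosets.Index

/-! # The number of `T`-orbits on `SL(2, ℤ)/Γ₀(N)` (number of cusps of `X₀(N)`). -/

set_option autoImplicit false

open Matrix MatrixGroups SpecialLinearGroup CongruenceSubgroup ModularGroup

namespace Fermat.Agent.Cosets

/-- The set of `⟨T⟩`-orbits on `X N`, i.e. the cusps. -/
abbrev TOrbits (N : ℕ) : Type :=
  MulAction.orbitRel.Quotient (Subgroup.zpowers (T : SL(2, ℤ))) (X N)

lemma tOrbit_eq_iff {N : ℕ} (g h : SL(2, ℤ)) :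
    (Quotient.mk'' (QuotientGroup.mk g : X N) : TOrbits N) =
      Quotient.mk'' (QuotientGroup.mk h : X N) ↔
      ∃ n : ℤ, (N : ℤ) ∣ (h 0 0 + n * h 1 0) * g 1 0 - h 1 0 * g 0 0 := by
  rw [Quotient.eq'', MulAction.orbitRel_apply, MulAction.mem_orbit_iff]
  constructor
  · rintro ⟨⟨_, n, rfl⟩, hn⟩
    refine ⟨n, ?_⟩
    have hn' : (QuotientGroup.mk (T ^ n * h) : X N) = QuotientGroup.mk g := hn
    rw [mk_eq_iff, T_zpow_mul_zero_zero, T_zpow_mul_one_zero] at hn'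
    exact hn'
  · rintro ⟨n, hn⟩
    refine ⟨⟨T ^ n, n, rfl⟩, ?_⟩
    have hn' : (QuotientGroup.mk (T ^ n * h) : X N) = QuotientGroup.mk g := by
      rw [mk_eq_iff, T_zpow_mul_zero_zero, T_zpow_mul_one_zero]
      exact hn
    exact hn'

lemma exists_rep (δ g : ℕ) (hδ : δ ≠ 0) (hg : g ∣ δ) (e : (ZMod g)ˣ) :
    ∃ M : SL(2, ℤ), M 1 0 = δ ∧ ((M 0 0 : ℤ) : ZMod g) = e := by
  have : NeZero δ := ⟨hδ⟩
  obtain ⟨a, ha⟩ := ZMod.unitsMap_surjective hg e
  have hcop : IsCoprime (((a : ZMod δ).val : ℕ) : ℤ) (δ : ℤ) :=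
    Nat.isCoprime_iff_coprime.mpr (ZMod.val_coe_unit_coprime a)
  obtain ⟨M, hM0, hM1⟩ := hcop.exists_SL2_col 0
  refine ⟨M, hM1, ?_⟩
  rw [hM0, ← ha]
  simp [ZMod.unitsMap_val]

theorem card_TOrbits (N : ℕ) [NeZero N] :
    Nat.card (TOrbits N) = ModularCurve.cuspCount N := by
  have hN : N ≠ 0 := NeZero.ne N
  have hcard : Nat.card (Σ δ : N.divisors, (ZMod (Nat.gcd δ (N / δ)))ˣ) =
      ModularCurve.cuspCount N := by
    have : ∀ δ : N.divisors, NeZero (Nat.gcd δ (N / δ)) := fun δ =>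
      ⟨Nat.gcd_ne_zero_left (Nat.pos_of_mem_divisors δ.2).ne'⟩
    rw [Nat.card_sigma, ModularCurve.cuspCount]
    simp only [Nat.card_eq_fintype_card, ZMod.card_units_eq_totient]
    exact Finset.sum_coe_sort N.divisors (fun δ => (Nat.gcd δ (N / δ)).totient)
  rw [← hcard]
  symm
  have hδ0 : ∀ δ : N.divisors, (δ : ℕ) ≠ 0 := fun δ => (Nat.pos_of_mem_divisors δ.2).ne'
  choose M hM1 hM0 using fun (p : Σ δ : N.divisors, (ZMod (Nat.gcd δ (N / δ)))ˣ) =>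
    exists_rep p.1 (Nat.gcd p.1 (N / p.1)) (hδ0 p.1) (Nat.gcd_dvd_left _ _) p.2
  refine Nat.card_congr (Equiv.ofBijective
    (fun p => (Quotient.mk'' (QuotientGroup.mk (M p) : X N) : TOrbits N)) ⟨?_, ?_⟩)
  · intro p q hpq
    have hpq' := (tOrbit_eq_iff _ _).mp hpq
    obtain ⟨n, hn⟩ := hpq'
    have hp1 := hM1 p
    have hq1 := hM1 q
    have hp0 := hM0 p
    have hq0 := hM0 q
    have cp := isCoprime_col (M p)
    have cq := isCoprime_col (M q)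
    obtain ⟨⟨δ, hδ⟩, e⟩ := p
    obtain ⟨⟨ε, hε⟩, f⟩ := q
    simp only at hp1 hq1 hp0 hq0
    generalize M ⟨⟨δ, hδ⟩, e⟩ = A at *
    generalize M ⟨⟨ε, hε⟩, f⟩ = B at *
    rw [hp1] at cp
    rw [hq1] at cq
    rw [hp1, hq1] at hn
    have hδN : (δ : ℤ) ∣ N := Int.natCast_dvd_natCast.mpr (Nat.dvd_of_mem_divisors hδ)
    have hεN : (ε : ℤ) ∣ N := Int.natCast_dvd_natCast.mpr (Nat.dvd_of_mem_divisors hε)
    have h1 : (ε : ℤ) ∣ δ := by
      have h2 : (ε : ℤ) ∣ (B 0 0 + n * ε) * δ := by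
        have := (hεN.trans hn).add (Dvd.intro (A 0 0) rfl : (ε : ℤ) ∣ ε * A 0 0)
        rwa [sub_add_cancel] at this
      have h3 : IsCoprime (ε : ℤ) (B 0 0 + n * ε) := by
        rw [IsCoprime.add_mul_right_right_iff]
        exact cq.symm
      exact h3.dvd_of_dvd_mul_left h2
    have h2 : (δ : ℤ) ∣ ε := by
      have h2 : (δ : ℤ) ∣ ε * A 0 0 := by
        have := (Dvd.intro_left (B 0 0 + n * ε) rfl : (δ : ℤ) ∣ (B 0 0 + n * ε) * δ).sub
          (hδN.trans hn)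
        rwa [sub_sub_cancel] at this
      exact cp.symm.dvd_of_dvd_mul_right h2
    obtain rfl : δ = ε := Nat.dvd_antisymm (Int.natCast_dvd_natCast.mp h2)
      (Int.natCast_dvd_natCast.mp h1)
    obtain ⟨N1, hN1⟩ := Nat.dvd_of_mem_divisors hδ
    have hδ0' : δ ≠ 0 := by rintro rfl; simp at hδ
    have hdiv : N / δ = N1 := by rw [hN1, Nat.mul_div_cancel_left _ (Nat.pos_of_ne_zero hδ0')]
    have h3 : (N1 : ℤ) ∣ B 0 0 - A 0 0 + n * δ := by
      have h4 : (δ : ℤ) * N1 ∣ δ * (B 0 0 - A 0 0 + n * δ) := by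
        have e1 : (δ : ℤ) * (B 0 0 - A 0 0 + n * δ) = (B 0 0 + n * δ) * δ - δ * A 0 0 := by ring
        rw [e1, ← Nat.cast_mul, ← hN1]; exact hn
      exact Int.dvd_of_mul_dvd_mul_left (by exact_mod_cast hδ0') h4
    have h5 : ((Nat.gcd δ (N / δ) : ℕ) : ℤ) ∣ B 0 0 - A 0 0 := by
      have h6 : ((Nat.gcd δ (N / δ) : ℕ) : ℤ) ∣ B 0 0 - A 0 0 + n * δ := by
        refine (Int.natCast_dvd_natCast.mpr ?_).trans h3
        rw [hdiv]; exact Nat.gcd_dvd_right _ _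
      have h7 : ((Nat.gcd δ (N / δ) : ℕ) : ℤ) ∣ n * δ :=
        (Int.natCast_dvd_natCast.mpr (Nat.gcd_dvd_left _ _)).mul_left n
      have := h6.sub h7
      rwa [add_sub_cancel_right] at this
    have h8 : e = f := by
      apply Units.ext
      rw [← hp0, ← hq0, ← sub_eq_zero, ← Int.cast_sub, ZMod.intCast_zmod_eq_zero_iff_dvd]
      have := h5.neg_right
      rwa [neg_sub] at this
    rw [h8]
  · intro x
    induction x using Quotient.inductionOn' with | h x => ?_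
    obtain ⟨h, rfl⟩ := QuotientGroup.mk_surjective x
    have hcop := isCoprime_col h
    set a := h 0 0 with ha
    set c := h 1 0 with hc
    have hδN : Int.gcd c N ∣ N := by
      have := Int.gcd_dvd_right c N
      exact Int.natCast_dvd_natCast.mp this
    set δ := Int.gcd c N with hδ
    have hδ0' : δ ≠ 0 := by
      intro h0
      rw [h0] at hδN
      exact hN (Nat.eq_zero_of_zero_dvd hδN)
    have hδmem : δ ∈ N.divisors := Nat.mem_divisors.mpr ⟨hδN, hN⟩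
    obtain ⟨N1, hN1⟩ := hδN
    have hdiv : N / δ = N1 := by
      conv_lhs => rw [hN1]
      rw [Nat.mul_div_cancel_left _ (Nat.pos_of_ne_zero hδ0')]
    obtain ⟨c1, hc1⟩ : (δ : ℤ) ∣ c := Int.gcd_dvd_left c N
    have hcop1 : IsCoprime c1 (N1 : ℤ) := by
      rw [Int.isCoprime_iff_gcd_eq_one]
      have h1 : Int.gcd c N = δ * Int.gcd c1 N1 := by
        conv_lhs => rw [hc1, hN1, Nat.cast_mul, Int.gcd_mul_left]
        simp
      rw [← hδ] at h1
      exact (Nat.eq_of_mul_eq_mul_left (Nat.pos_of_ne_zero hδ0') (by rw [mul_one]; exact h1)).symm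
    obtain ⟨r, s, hrs⟩ := hcop1
    set g := Nat.gcd δ (N / δ) with hg
    have hgδ : (g : ℤ) ∣ δ := Int.natCast_dvd_natCast.mpr (Nat.gcd_dvd_left _ _)
    have hgN1 : (g : ℤ) ∣ N1 := by
      rw [hg, hdiv]; exact Int.natCast_dvd_natCast.mpr (Nat.gcd_dvd_right _ _)
    have hunit : IsUnit (((a * r : ℤ)) : ZMod g) := by
      have h1 : IsCoprime (a * r) (g : ℤ) := by
        refine IsCoprime.mul_left ?_ ?_
        · exact hcop.of_isCoprime_of_dvd_right (hgδ.trans ⟨c1, hc1⟩)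
        · obtain ⟨w, hw⟩ := hgN1
          exact ⟨c1, s * w, by rw [← hrs, hw]; ring⟩
      have h2 := h1.map (Int.castRingHom (ZMod g))
      simp only [eq_intCast, Int.cast_natCast, CharP.cast_eq_zero] at h2
      exact isCoprime_zero_right.mp h2
    obtain ⟨e, he⟩ := hunit
    refine ⟨⟨⟨δ, hδmem⟩, e⟩, ?_⟩
    rw [tOrbit_eq_iff]
    -- we look for `n`
    have hMe1 := hM1 ⟨⟨δ, hδmem⟩, e⟩
    have hMe0 := hM0 ⟨⟨δ, hδmem⟩, e⟩
    simp only at hMe1 hMe0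
    generalize M ⟨⟨δ, hδmem⟩, e⟩ = A at *
    rw [he, ← sub_eq_zero, ← Int.cast_sub, ZMod.intCast_zmod_eq_zero_iff_dvd] at hMe0
    obtain ⟨t, ht⟩ := hMe0
    have hbez : (g : ℤ) = δ * Nat.gcdA δ N1 + N1 * Nat.gcdB δ N1 := by
      rw [hg, hdiv]; exact Nat.gcd_eq_gcd_ab δ N1
    refine ⟨Nat.gcdA δ N1 * t, ?_⟩
    rw [← ha, ← hc, hMe1, hc1]
    refine ⟨a * s - c1 * Nat.gcdB δ N1 * t, ?_⟩
    have hN1' : (N : ℤ) = δ * N1 := by exact_mod_cast hN1
    rw [hN1']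
    rw [hbez] at ht
    linear_combination (-(δ : ℤ) * c1) * ht - a * δ * hrs

end Fermat.Agent.Cosets
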