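import Fermat.Agent.Cosets.Basic

/-! # The index of `Γ₀(N)` in `SL(2, ℤ)` is the Dedekind psi function. -/

set_option autoImplicit false

open Matrix MatrixGroups SpecialLinearGroup CongruenceSubgroup ModularGroup

namespace Fermat.Agent.Cosets

lemma Gamma0_mul_le (N p : ℕ) : Gamma0 (N * p) ≤ Gamma0 N := by
  intro g hg
  rw [Gamma0_mem, ZMod.intCast_zmod_eq_zero_iff_dvd] at hg ⊢
  exact (Int.natCast_dvd_natCast.mpr (Dvd.intro p rfl)).trans hg

lemma mk_subgroupOf_eq_iff {N M : ℕ} (g h : Gamma0 N) :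
    (QuotientGroup.mk g : Gamma0 N ⧸ (Gamma0 M).subgroupOf (Gamma0 N)) = QuotientGroup.mk h ↔
      (M : ℤ) ∣ g.1 0 0 * h.1 1 0 - g.1 1 0 * h.1 0 0 := by
  rw [QuotientGroup.eq, Subgroup.mem_subgroupOf, ← mk_eq_iff, QuotientGroup.eq]
  rfl

/-- lower triangular unipotent matrix -/
def low (t : ℤ) : SL(2, ℤ) := ⟨!![1, 0; t, 1], by simp [Matrix.det_fin_two]⟩

@[simp] lemma low_zero_zero (t : ℤ) : (low t) 0 0 = 1 := rfl
@[simp] lemma low_one_zero (t : ℤ) : (low t) 1 0 = t := rfl

lemma mem_Gamma0_iff {N : ℕ} {g : SL(2, ℤ)} : g ∈ Gamma0 N ↔ (N : ℤ) ∣ g 1 0 := by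
  rw [Gamma0_mem, ZMod.intCast_zmod_eq_zero_iff_dvd]

theorem relIndex_of_dvd {N p : ℕ} [NeZero N] (hp : p.Prime) (hpN : p ∣ N) :
    (Gamma0 (N * p)).relIndex (Gamma0 N) = p := by
  have := Fact.mk hp
  have hN : (N : ℤ) ≠ 0 := by exact_mod_cast NeZero.ne N
  rw [Subgroup.relIndex, Subgroup.index]
  have : Nat.card (ZMod p) = p := by simp
  conv_rhs => rw [← this]
  symm
  refine Nat.card_congr (Equiv.ofBijective
    (fun t : ZMod p => QuotientGroup.mk (⟨low (N * (t.val : ℤ)), ?_⟩ : Gamma0 N)) ⟨?_, ?_⟩)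
  · rw [mem_Gamma0_iff, low_one_zero]; exact Dvd.intro _ rfl
  · intro t s h
    have h1 := (mk_subgroupOf_eq_iff _ _).mp h
    simp only [low_zero_zero, low_one_zero, one_mul, mul_one, Nat.cast_mul, ← mul_sub] at h1
    have h2 := Int.dvd_of_mul_dvd_mul_left hN h1
    rw [← ZMod.intCast_zmod_eq_zero_iff_dvd] at h2
    push_cast at h2
    simp only [ZMod.natCast_val, ZMod.cast_id', id_eq] at h2
    exact (sub_eq_zero.mp h2).symm
  · intro x
    obtain ⟨⟨g, hg⟩, rfl⟩ := QuotientGroup.mk_surjective x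
    obtain ⟨k, hk⟩ := mem_Gamma0_iff.mp hg
    have hpg : ¬ (p : ℤ) ∣ g 0 0 := by
      intro h
      have hpc : (p : ℤ) ∣ g 1 0 := by
        rw [hk]; exact Dvd.dvd.mul_right (Int.natCast_dvd_natCast.mpr hpN) k
      have := (isCoprime_col g).isUnit_of_dvd' h hpc
      exact (Nat.prime_iff_prime_int.mp hp).not_isUnit this
    have hu : ((g 0 0 : ℤ) : ZMod p) ≠ 0 := by
      rwa [Ne, ZMod.intCast_zmod_eq_zero_iff_dvd]
    refine ⟨(k : ZMod p) / ((g 0 0 : ℤ) : ZMod p), ?_⟩
    rw [mk_subgroupOf_eq_iff]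
    simp only [low_zero_zero, low_one_zero, one_mul, Nat.cast_mul, hk]
    rw [mul_assoc, ← mul_sub]
    refine mul_dvd_mul_left _ ?_
    rw [← ZMod.intCast_zmod_eq_zero_iff_dvd]
    push_cast
    simp only [ZMod.natCast_val, ZMod.cast_id', id_eq]
    rw [div_mul_cancel₀ _ hu, sub_self]

theorem relIndex_of_not_dvd {N p : ℕ} [NeZero N] (hp : p.Prime) (hpN : ¬ p ∣ N) :
    (Gamma0 (N * p)).relIndex (Gamma0 N) = p + 1 := by
  have := Fact.mk hp
  have hN : (N : ℤ) ≠ 0 := by exact_mod_cast NeZero.ne N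
  rw [Subgroup.relIndex, Subgroup.index]
  have : Nat.card (Option (ZMod p)) = p + 1 := by
    rw [Finite.card_option]; simp
  conv_rhs => rw [← this]
  symm
  have hcop : IsCoprime (p : ℤ) (N : ℤ) :=
    Nat.isCoprime_iff_coprime.mpr ((Nat.Prime.coprime_iff_not_dvd hp).mpr hpN)
  obtain ⟨u, v, huv⟩ := hcop
  -- the entry `a t`
  let a : ZMod p → ℤ := fun t => u * p + (t.val : ℤ) * v * N
  have haN : ∀ t, IsCoprime (a t) (N : ℤ) := by
    intro t
    refine ⟨1, v - (t.val : ℤ) * v, ?_⟩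
    simp only [a]
    linear_combination huv
  have hap : ∀ t, ((a t : ℤ) : ZMod p) = t := by
    intro t
    have h1 : ((u * p + v * N : ℤ) : ZMod p) = 1 := by rw [huv]; simp
    push_cast at h1
    simp only [a]
    push_cast
    simp only [ZMod.natCast_val, ZMod.cast_id', id_eq, CharP.cast_eq_zero, mul_zero, zero_add]
      at h1 ⊢
    rw [mul_assoc, h1, mul_one]
  choose M hM0 hM1 using fun t => (haN t).exists_SL2_col 0
  have hMmem : ∀ t, M t ∈ Gamma0 N := fun t => by
    rw [mem_Gamma0_iff, hM1]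
  refine Nat.card_congr (Equiv.ofBijective
    (fun t : Option (ZMod p) => QuotientGroup.mk
      (match t with
        | none => (1 : Gamma0 N)
        | some t => ⟨M t, hMmem t⟩)) ⟨?_, ?_⟩)
  · have key : ∀ t : ZMod p, ¬ ((N * p : ℕ) : ℤ) ∣ N := by
      intro t h
      rw [Nat.cast_mul] at h
      have h2 : (N : ℤ) * p ∣ N * 1 := by rwa [mul_one]
      have h3 := Int.dvd_of_mul_dvd_mul_left hN h2
      exact (Nat.prime_iff_prime_int.mp hp).not_isUnit (isUnit_of_dvd_one h3)
    rintro (_ | t) (_ | s) h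
    · rfl
    · exfalso
      have h1 := (mk_subgroupOf_eq_iff _ _).mp h
      simp only [OneMemClass.coe_one, hM0, hM1] at h1
      apply key s
      simpa using h1
    · exfalso
      have h1 := (mk_subgroupOf_eq_iff _ _).mp h
      simp only [OneMemClass.coe_one, hM0, hM1] at h1
      apply key t
      simpa using h1
    · have h1 := (mk_subgroupOf_eq_iff _ _).mp h
      simp only [hM0, hM1, Nat.cast_mul] at h1
      rw [mul_comm (a t), ← mul_sub] at h1
      have h2 := Int.dvd_of_mul_dvd_mul_left hN h1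
      rw [← ZMod.intCast_zmod_eq_zero_iff_dvd] at h2
      push_cast at h2
      rw [hap, hap] at h2
      rw [sub_eq_zero.mp h2]
  · intro x
    obtain ⟨⟨g, hg⟩, rfl⟩ := QuotientGroup.mk_surjective x
    obtain ⟨k, hk⟩ := mem_Gamma0_iff.mp hg
    by_cases hpk : (p : ℤ) ∣ k
    · refine ⟨none, ?_⟩
      simp only
      rw [mk_subgroupOf_eq_iff]
      simp only [OneMemClass.coe_one, hk, Nat.cast_mul]
      simpa using mul_dvd_mul_left (N : ℤ) hpk
    · have hu : ((k : ℤ) : ZMod p) ≠ 0 := by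
        rwa [Ne, ZMod.intCast_zmod_eq_zero_iff_dvd]
      refine ⟨some (((g 0 0 : ℤ) : ZMod p) / (k : ZMod p)), ?_⟩
      simp only
      rw [mk_subgroupOf_eq_iff]
      simp only [hM0, hM1, hk, Nat.cast_mul]
      rw [mul_left_comm, ← mul_sub]
      refine mul_dvd_mul_left _ ?_
      rw [← ZMod.intCast_zmod_eq_zero_iff_dvd]
      push_cast
      rw [hap, div_mul_cancel₀ _ hu, sub_self]

open ModularCurve in
theorem dedekindPsi_mul_of_dvd {N p : ℕ} [NeZero N] (hp : p.Prime) (hpN : p ∣ N) :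
    dedekindPsi (N * p) = p * dedekindPsi N := by
  have hN : N ≠ 0 := NeZero.ne N
  rw [dedekindPsi, dedekindPsi, Finset.mul_sum]
  have hset : (N * p).divisors.filter Squarefree = N.divisors.filter Squarefree := by
    ext d
    simp only [Finset.mem_filter, Nat.mem_divisors, ne_eq, mul_eq_zero, hN, hp.ne_zero, or_self,
      not_false_eq_true, and_true]
    refine ⟨fun ⟨h1, h2⟩ => ⟨?_, h2⟩, fun ⟨h1, h2⟩ => ⟨h1.mul_right p, h2⟩⟩
    by_cases hpd : p ∣ d
    · obtain ⟨e, rfl⟩ := hpd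
      have hpe : Nat.Coprime p e := by
        rw [Nat.squarefree_mul_iff] at h2
        exact h2.1
      have he : e ∣ N := by
        rw [mul_comm] at h1
        exact Nat.dvd_of_mul_dvd_mul_right hp.pos h1
      exact hpe.mul_dvd_of_dvd_of_dvd hpN he
    · have : Nat.Coprime d p := (Nat.coprime_comm.mp ((Nat.Prime.coprime_iff_not_dvd hp).mpr hpd))
      exact this.dvd_of_dvd_mul_right h1
  rw [hset]
  refine Finset.sum_congr rfl fun d hd => ?_
  rw [Finset.mem_filter, Nat.mem_divisors] at hd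
  rw [mul_comm N p, Nat.mul_div_assoc _ hd.1.1]

open ModularCurve in
theorem dedekindPsi_mul_of_not_dvd {N p : ℕ} [NeZero N] (hp : p.Prime) (hpN : ¬ p ∣ N) :
    dedekindPsi (N * p) = (p + 1) * dedekindPsi N := by
  have hN : N ≠ 0 := NeZero.ne N
  have hcop : Nat.Coprime p N := (Nat.Prime.coprime_iff_not_dvd hp).mpr hpN
  rw [dedekindPsi, dedekindPsi, add_mul, one_mul, Finset.mul_sum]
  have hset : (N * p).divisors.filter Squarefree = (N.divisors.filter Squarefree) ∪
      (N.divisors.filter Squarefree).image (fun d => p * d) := by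
    ext d
    simp only [Finset.mem_filter, Nat.mem_divisors, ne_eq, mul_eq_zero, hN, hp.ne_zero, or_self,
      not_false_eq_true, and_true, Finset.mem_union, Finset.mem_image]
    constructor
    · rintro ⟨h1, h2⟩
      by_cases hpd : p ∣ d
      · obtain ⟨e, rfl⟩ := hpd
        right
        rw [Nat.squarefree_mul_iff] at h2
        refine ⟨e, ⟨?_, h2.2.2⟩, rfl⟩
        rw [mul_comm] at h1
        exact Nat.dvd_of_mul_dvd_mul_right hp.pos h1
      · left
        have : Nat.Coprime d p :=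
          (Nat.coprime_comm.mp ((Nat.Prime.coprime_iff_not_dvd hp).mpr hpd))
        exact ⟨this.dvd_of_dvd_mul_right h1, h2⟩
    · rintro (⟨h1, h2⟩ | ⟨e, ⟨h1, h2⟩, rfl⟩)
      · exact ⟨h1.mul_right p, h2⟩
      · refine ⟨by rw [mul_comm]; exact Nat.mul_dvd_mul_right h1 p, ?_⟩
        rw [Nat.squarefree_mul_iff]
        exact ⟨hcop.coprime_dvd_right h1, hp.squarefree, h2⟩
  have hdisj : Disjoint (N.divisors.filter Squarefree)
      ((N.divisors.filter Squarefree).image (fun d => p * d)) := by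
    rw [Finset.disjoint_left]
    intro d hd hd'
    simp only [Finset.mem_filter, Nat.mem_divisors, Finset.mem_image] at hd hd'
    obtain ⟨e, -, rfl⟩ := hd'
    exact hpN ((Dvd.intro e rfl).trans hd.1.1)
  rw [hset, Finset.sum_union hdisj, Finset.sum_image]
  · congr 1
    · refine Finset.sum_congr rfl fun d hd => ?_
      rw [Finset.mem_filter, Nat.mem_divisors] at hd
      rw [mul_comm N p, Nat.mul_div_assoc _ hd.1.1]
    · refine Finset.sum_congr rfl fun d hd => ?_
      rw [mul_comm N p, Nat.mul_div_mul_left _ _ hp.pos]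
  · intro x _ y _ h
    exact Nat.eq_of_mul_eq_mul_left hp.pos h

lemma index_Gamma0_one : (Gamma0 1).index = 1 := by
  rw [Subgroup.index_eq_one, eq_top_iff]
  intro g _
  rw [mem_Gamma0_iff]
  simp

/-- The index of `Γ₀(N)` in `SL(2, ℤ)` equals the Dedekind psi function. -/
theorem index_Gamma0 (N : ℕ) [hN : NeZero N] :
    (Gamma0 N).index = ModularCurve.dedekindPsi N := by
  suffices H : ∀ M : ℕ, M ≠ 0 → (Gamma0 M).index = ModularCurve.dedekindPsi M from
    H N (NeZero.ne N)
  intro M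
  induction M using induction_on_primes with
  | zero => intro h; exact absurd rfl h
  | one => intro _; rw [ModularCurve.dedekindPsi_one, index_Gamma0_one]
  | prime_mul p a hp ih =>
    intro h
    have ha : a ≠ 0 := right_ne_zero_of_mul h
    have ih' := ih ha
    have : NeZero a := ⟨ha⟩
    have h := Subgroup.relIndex_mul_index (Gamma0_mul_le a p)
    rw [mul_comm p a, ← h, ih']
    by_cases hpa : p ∣ a
    · rw [relIndex_of_dvd hp hpa, dedekindPsi_mul_of_dvd hp hpa]
    · rw [relIndex_of_not_dvd hp hpa, dedekindPsi_mul_of_not_dvd hp hpa]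

theorem card_X (N : ℕ) [NeZero N] : Nat.card (X N) = ModularCurve.dedekindPsi N :=
  index_Gamma0 N

end Fermat.Agent.Cosets
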