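import Mathlib
import Fermat.Prelude.Def_ModularCurve_GenusNumerics

/-! # Coset combinatorics for `Γ₀(N)` in `SL(2, ℤ)`: basic lemmas, elliptic fixed points. -/

set_option autoImplicit false

open Matrix MatrixGroups SpecialLinearGroup CongruenceSubgroup ModularGroup

namespace Fermat.Agent.Cosets

/-- Left cosets of `Γ₀(N)` in `SL(2, ℤ)`. -/
abbrev X (N : ℕ) : Type := SL(2, ℤ) ⧸ Gamma0 N

lemma det_eq (g : SL(2, ℤ)) : g 0 0 * g 1 1 - g 0 1 * g 1 0 = 1 := by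
  have := g.det_coe
  rwa [Matrix.det_fin_two] at this

lemma isCoprime_col (g : SL(2, ℤ)) : IsCoprime (g 0 0) (g 1 0) :=
  ⟨g 1 1, - g 0 1, by linarith [det_eq g]⟩

lemma mul_apply_zero_zero (g h : SL(2, ℤ)) :
    (g * h) 0 0 = g 0 0 * h 0 0 + g 0 1 * h 1 0 := by
  simp [Matrix.mul_apply, Fin.sum_univ_two]

lemma mul_apply_one_zero (g h : SL(2, ℤ)) :
    (g * h) 1 0 = g 1 0 * h 0 0 + g 1 1 * h 1 0 := by
  simp [Matrix.mul_apply, Fin.sum_univ_two]

lemma inv_apply_one_zero (g : SL(2, ℤ)) : g⁻¹ 1 0 = - g 1 0 := by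
  rw [SL2_inv_expl]; rfl

lemma inv_apply_one_one (g : SL(2, ℤ)) : g⁻¹ 1 1 = g 0 0 := by
  rw [SL2_inv_expl]; rfl

/-- Criterion for equality of cosets in terms of first columns. -/
lemma mk_eq_iff {N : ℕ} (g h : SL(2, ℤ)) :
    (QuotientGroup.mk g : X N) = QuotientGroup.mk h ↔
      (N : ℤ) ∣ g 0 0 * h 1 0 - g 1 0 * h 0 0 := by
  rw [QuotientGroup.eq, Gamma0_mem, mul_apply_one_zero, inv_apply_one_zero, inv_apply_one_one,
    ZMod.intCast_zmod_eq_zero_iff_dvd]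
  constructor <;> intro h <;> convert h using 1 <;> ring

lemma S_mul_zero_zero (g : SL(2, ℤ)) : (S * g) 0 0 = - g 1 0 := by
  rw [mul_apply_zero_zero]; simp [S]

lemma S_mul_one_zero (g : SL(2, ℤ)) : (S * g) 1 0 = g 0 0 := by
  rw [mul_apply_one_zero]; simp [S]

lemma T_zpow_mul_zero_zero (n : ℤ) (g : SL(2, ℤ)) : (T ^ n * g) 0 0 = g 0 0 + n * g 1 0 := by
  rw [mul_apply_zero_zero]; simp [coe_T_zpow]

lemma T_zpow_mul_one_zero (n : ℤ) (g : SL(2, ℤ)) : (T ^ n * g) 1 0 = g 1 0 := by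
  rw [mul_apply_one_zero]; simp [coe_T_zpow]

lemma T_mul_zero_zero (g : SL(2, ℤ)) : (T * g) 0 0 = g 0 0 + g 1 0 := by
  simpa using T_zpow_mul_zero_zero 1 g

lemma T_mul_one_zero (g : SL(2, ℤ)) : (T * g) 1 0 = g 1 0 := by
  simpa using T_zpow_mul_one_zero 1 g

lemma smul_mk {N : ℕ} (g h : SL(2, ℤ)) :
    g • (QuotientGroup.mk h : X N) = QuotientGroup.mk (g * h) := rfl

/-- the matrix with first column `(t, 1)`. -/
def col1 (t : ℤ) : SL(2, ℤ) := ⟨!![t, -1; 1, 0], by simp [Matrix.det_fin_two]⟩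

@[simp] lemma col1_zero_zero (t : ℤ) : (col1 t) 0 0 = t := rfl
@[simp] lemma col1_one_zero (t : ℤ) : (col1 t) 1 0 = 1 := rfl

lemma isUnit_of_fixed {N : ℕ} {a c : ℤ} (hac : IsCoprime a c) (m : ℤ)
    (h : (N : ℤ) ∣ a ^ 2 + m * c) : IsUnit (c : ZMod N) := by
  have h1 : IsCoprime (N : ℤ) c := by
    have : IsCoprime (a ^ 2 + m * c) c := by
      rw [IsCoprime.add_mul_right_left_iff]
      exact hac.pow_left
    exact this.of_isCoprime_of_dvd_left h
  have h2 := h1.symm.map (Int.castRingHom (ZMod N))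
  simp only [eq_intCast, Int.cast_natCast, CharP.cast_eq_zero] at h2
  exact isCoprime_zero_right.mp h2

/-- Fixed points of `S` on `SL(2,ℤ)/Γ₀(N)`. -/
theorem card_fixed_S (N : ℕ) [NeZero N] :
    Nat.card {x : X N // S • x = x} = ModularCurve.nuTwo N := by
  rw [ModularCurve.nuTwo]
  symm
  refine Nat.card_congr (Equiv.ofBijective
    (fun t : {x : ZMod N // x ^ 2 + 1 = 0} =>
      (⟨QuotientGroup.mk (col1 (t.1.val : ℤ)), ?_⟩ : {x : X N // S • x = x})) ⟨?_, ?_⟩)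
  · rw [smul_mk, mk_eq_iff, S_mul_zero_zero, S_mul_one_zero, col1_zero_zero, col1_one_zero]
    rw [← ZMod.intCast_zmod_eq_zero_iff_dvd]
    have := t.2
    push_cast
    simp only [ZMod.natCast_val, ZMod.cast_id', id_eq]
    linear_combination -this
  · intro t t' h
    have h1 := (mk_eq_iff _ _).mp (congrArg Subtype.val h)
    simp only [col1_zero_zero, col1_one_zero] at h1
    rw [← ZMod.intCast_zmod_eq_zero_iff_dvd] at h1
    push_cast at h1
    simp only [ZMod.natCast_val, ZMod.cast_id', id_eq, mul_one, one_mul] at h1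
    exact Subtype.ext (sub_eq_zero.mp h1)
  · rintro ⟨x, hx⟩
    obtain ⟨g, rfl⟩ := QuotientGroup.mk_surjective x
    rw [smul_mk, mk_eq_iff, S_mul_zero_zero, S_mul_one_zero] at hx
    have hx' : (N : ℤ) ∣ (g 0 0) ^ 2 + (g 1 0) * (g 1 0) := by
      rw [← dvd_neg]
      have e : -((g 0 0) ^ 2 + (g 1 0) * (g 1 0)) = -g 1 0 * g 1 0 - g 0 0 * g 0 0 := by ring
      rw [e]; exact hx
    obtain ⟨u, hu⟩ := isUnit_of_fixed (isCoprime_col g) _ hx'
    have hx2 : ((g 0 0 : ℤ) : ZMod N) ^ 2 + ((g 1 0 : ℤ) : ZMod N) * (g 1 0 : ℤ) = 0 := by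
      rw [← ZMod.intCast_zmod_eq_zero_iff_dvd] at hx'
      push_cast at hx'
      exact hx'
    have huu : ((g 1 0 : ℤ) : ZMod N) * (↑u⁻¹ : ZMod N) = 1 := by rw [← hu]; simp
    refine ⟨⟨((g 0 0 : ℤ) : ZMod N) * (↑u⁻¹ : ZMod N), ?_⟩, ?_⟩
    · linear_combination (↑u⁻¹ : ZMod N) ^ 2 * hx2
        - (1 + ((g 1 0 : ℤ) : ZMod N) * (↑u⁻¹ : ZMod N)) * huu
    · refine Subtype.ext ((mk_eq_iff _ _).mpr ?_)
      simp only [col1_zero_zero, col1_one_zero]
      rw [← ZMod.intCast_zmod_eq_zero_iff_dvd]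
      push_cast
      simp only [ZMod.natCast_val, ZMod.cast_id', id_eq]
      linear_combination ((g 0 0 : ℤ) : ZMod N) * huu

/-- Fixed points of `S * T` on `SL(2,ℤ)/Γ₀(N)`. -/
theorem card_fixed_ST (N : ℕ) [NeZero N] :
    Nat.card {x : X N // (S * T) • x = x} = ModularCurve.nuThree N := by
  rw [ModularCurve.nuThree]
  symm
  refine Nat.card_congr (Equiv.ofBijective
    (fun t : {x : ZMod N // x ^ 2 + x + 1 = 0} =>
      (⟨QuotientGroup.mk (col1 (t.1.val : ℤ)), ?_⟩ : {x : X N // (S * T) • x = x})) ⟨?_, ?_⟩)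
  · rw [smul_mk, mk_eq_iff, mul_assoc, S_mul_zero_zero, S_mul_one_zero, T_mul_one_zero,
      T_mul_zero_zero, col1_zero_zero, col1_one_zero]
    rw [← ZMod.intCast_zmod_eq_zero_iff_dvd]
    have := t.2
    push_cast
    simp only [ZMod.natCast_val, ZMod.cast_id', id_eq]
    linear_combination -this
  · intro t t' h
    have h1 := (mk_eq_iff _ _).mp (congrArg Subtype.val h)
    simp only [col1_zero_zero, col1_one_zero] at h1
    rw [← ZMod.intCast_zmod_eq_zero_iff_dvd] at h1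
    push_cast at h1
    simp only [ZMod.natCast_val, ZMod.cast_id', id_eq, mul_one, one_mul] at h1
    exact Subtype.ext (sub_eq_zero.mp h1)
  · rintro ⟨x, hx⟩
    obtain ⟨g, rfl⟩ := QuotientGroup.mk_surjective x
    rw [smul_mk, mk_eq_iff, mul_assoc, S_mul_zero_zero, S_mul_one_zero, T_mul_one_zero,
      T_mul_zero_zero] at hx
    have hx' : (N : ℤ) ∣ (g 0 0) ^ 2 + (g 0 0 + g 1 0) * (g 1 0) := by
      rw [← dvd_neg]
      have e : -((g 0 0) ^ 2 + (g 0 0 + g 1 0) * (g 1 0)) =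
        -g 1 0 * g 1 0 - (g 0 0 + g 1 0) * g 0 0 := by ring
      rw [e]; exact hx
    obtain ⟨u, hu⟩ := isUnit_of_fixed (isCoprime_col g) _ hx'
    have hx2 : ((g 0 0 : ℤ) : ZMod N) ^ 2 +
        (((g 0 0 : ℤ) : ZMod N) + ((g 1 0 : ℤ) : ZMod N)) * (g 1 0 : ℤ) = 0 := by
      rw [← ZMod.intCast_zmod_eq_zero_iff_dvd] at hx'
      push_cast at hx'
      exact hx'
    have huu : ((g 1 0 : ℤ) : ZMod N) * (↑u⁻¹ : ZMod N) = 1 := by rw [← hu]; simp
    refine ⟨⟨((g 0 0 : ℤ) : ZMod N) * (↑u⁻¹ : ZMod N), ?_⟩, ?_⟩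
    · linear_combination (↑u⁻¹ : ZMod N) ^ 2 * hx2
        - (1 + ((g 1 0 : ℤ) : ZMod N) * (↑u⁻¹ : ZMod N)
            + ((g 0 0 : ℤ) : ZMod N) * (↑u⁻¹ : ZMod N)) * huu
    · refine Subtype.ext ((mk_eq_iff _ _).mpr ?_)
      simp only [col1_zero_zero, col1_one_zero]
      rw [← ZMod.intCast_zmod_eq_zero_iff_dvd]
      push_cast
      simp only [ZMod.natCast_val, ZMod.cast_id', id_eq]
      linear_combination ((g 0 0 : ℤ) : ZMod N) * huu

end Fermat.Agent.Cosets
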